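import Mathlib
import Fermat.Prelude.Def_FLTPrelim_Modularity
import Fermat.Agent.Frob.Count

/-!
# The trace of Frobenius at `2` of a curve with good reduction at `2`
-/

set_option autoImplicit false

namespace Fermat.Agent.H28N

open WeierstrassCurve

section count

/-- number of affine solutions over `𝔽₂` -/
def cntTwo (a1 a2 a3 a4 a6 : ZMod 2) : ℕ :=
  ∑ x : ZMod 2, (Finset.univ.filter
    (fun y : ZMod 2 => y ^ 2 + a1 * x * y + a3 * y = x ^ 3 + a2 * x ^ 2 + a4 * x + a6)).card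

theorem card_point_two (V : WeierstrassCurve (ZMod 2)) (hV : V.Δ ≠ 0) :
    Nat.card V.toAffine.Point = 1 + cntTwo V.a₁ V.a₂ V.a₃ V.a₄ V.a₆ := by
  have hell : V.IsElliptic := ⟨isUnit_iff_ne_zero.mpr hV⟩
  have hell' : V.toAffine.IsElliptic := hell
  rw [Frob.card_point_eq]
  congr 1
  unfold cntTwo
  refine Finset.sum_congr rfl fun x _ => ?_
  congr 1
  ext y
  rw [Frob.mem_fib, Finset.mem_filter, WeierstrassCurve.Affine.equation_iff]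
  simp

theorem trace_two (V : WeierstrassCurve (ZMod 2)) (hV : V.Δ ≠ 0) :
    V.traceOfFrobenius = 2 - (cntTwo V.a₁ V.a₂ V.a₃ V.a₄ V.a₆ : ℤ) := by
  have h := card_point_two V hV
  have h2 : Nat.card (ZMod 2) = 2 := Nat.card_zmod 2
  rw [WeierstrassCurve.traceOfFrobenius, WeierstrassCurve.card, h, h2]
  push_cast
  ring

theorem cnt_odd : ∀ a2 a3 a4 a6 : ZMod 2,
    -(1 ^ 2 + 4 * a2) ^ 2 * (1 ^ 2 * a6 + 4 * a2 * a6 - 1 * a3 * a4 + a2 * a3 ^ 2 - a4 ^ 2) -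
      8 * (2 * a4 + 1 * a3) ^ 3 - 27 * (a3 ^ 2 + 4 * a6) ^ 2 +
      9 * (1 ^ 2 + 4 * a2) * (2 * a4 + 1 * a3) * (a3 ^ 2 + 4 * a6) ≠ 0 →
    cntTwo 1 a2 a3 a4 a6 = 1 ∨ cntTwo 1 a2 a3 a4 a6 = 3 := by decide

theorem cnt_even : ∀ a2 a4 a6 : ZMod 2,
    (a2 + a4 = 0 → cntTwo 0 a2 1 a4 a6 = 2) ∧
    (a2 + a4 ≠ 0 → cntTwo 0 a2 1 a4 a6 = 0 ∨ cntTwo 0 a2 1 a4 a6 = 4) := by decide

end count

variable {W : WeierstrassCurve ℤ}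

theorem apOfModel_two (h : ¬ (2 : ℤ) ∣ W.Δ) : W.apOfModel 2 =
    2 - (cntTwo (W.a₁ : ZMod 2) (W.a₂ : ZMod 2) (W.a₃ : ZMod 2) (W.a₄ : ZMod 2)
      (W.a₆ : ZMod 2) : ℤ) := by
  have hV : (W.reductionMod 2).Δ ≠ 0 := by
    rw [WeierstrassCurve.reductionMod, WeierstrassCurve.map_Δ]
    intro h1
    apply h
    have := (ZMod.intCast_zmod_eq_zero_iff_dvd W.Δ 2).mp h1
    exact_mod_cast this
  exact trace_two _ hV

theorem odd_a3 (h : ¬ (2 : ℤ) ∣ W.Δ) (h1 : (2 : ℤ) ∣ W.a₁) : ¬ (2 : ℤ) ∣ W.a₃ := by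
  rintro ⟨b, hb⟩
  obtain ⟨a, ha⟩ := h1
  apply h
  simp only [WeierstrassCurve.Δ, WeierstrassCurve.b₂, WeierstrassCurve.b₄, WeierstrassCurve.b₆,
    WeierstrassCurve.b₈]
  rw [ha, hb]
  ring_nf
  omega

theorem c4_of_even {a b : ℤ} (ha : W.a₁ = 2 * a) (hb : W.a₃ = 2 * b + 1) :
    W.c₄ = 16 * ((a ^ 2 + W.a₂) ^ 2 - 3 * (W.a₄ + a * (2 * b + 1))) := by
  simp only [WeierstrassCurve.c₄, WeierstrassCurve.b₂, WeierstrassCurve.b₄]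
  rw [ha, hb]
  ring

theorem c4_odd (ha : ¬ (2 : ℤ) ∣ W.a₁) : ¬ (2 : ℤ) ∣ W.c₄ := by
  obtain ⟨a, ha⟩ : ∃ a, W.a₁ = 2 * a + 1 := ⟨W.a₁ / 2, by omega⟩
  rintro ⟨c, hc⟩
  have h1 : W.c₄ = 2 * (8 * (a ^ 2 + a + W.a₂) ^ 2 + 4 * (a ^ 2 + a + W.a₂) - 24 * W.a₄ -
      12 * (2 * a + 1) * W.a₃) + 1 := by
    simp only [WeierstrassCurve.c₄, WeierstrassCurve.b₂, WeierstrassCurve.b₄]
    rw [ha]
    ring
  omega

theorem parity_aux {a b c d : ℤ} : (32 : ℤ) ∣ 16 * ((a ^ 2 + c) ^ 2 - 3 * (d + a * (2 * b + 1))) ↔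
    ((c : ZMod 2) + (d : ZMod 2) = 0) := by
  have key : ∀ a b c d : ZMod 2, (a ^ 2 + c) ^ 2 - 3 * (d + a * (2 * b + 1)) = c + d := by decide
  have h1 : (32 : ℤ) ∣ 16 * ((a ^ 2 + c) ^ 2 - 3 * (d + a * (2 * b + 1))) ↔
      (2 : ℤ) ∣ ((a ^ 2 + c) ^ 2 - 3 * (d + a * (2 * b + 1))) := by
    constructor
    · rintro ⟨k, hk⟩
      exact ⟨k, by linarith⟩
    · rintro ⟨k, hk⟩
      exact ⟨k, by linarith⟩
  have h2 := key (a : ZMod 2) b c d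
  rw [h1]
  have h3 : (2 : ℤ) ∣ ((a ^ 2 + c) ^ 2 - 3 * (d + a * (2 * b + 1))) ↔
      ((((a ^ 2 + c) ^ 2 - 3 * (d + a * (2 * b + 1)) : ℤ)) : ZMod 2) = 0 :=
    (ZMod.intCast_zmod_eq_zero_iff_dvd _ 2).symm
  rw [h3]
  push_cast
  rw [h2]

theorem apOfModel_odd (h : ¬ (2 : ℤ) ∣ W.Δ) (ha : ¬ (2 : ℤ) ∣ W.a₁) :
    W.apOfModel 2 = 1 ∨ W.apOfModel 2 = -1 := by
  rw [apOfModel_two h]
  have ha1 : (W.a₁ : ZMod 2) = 1 := by
    obtain ⟨a, ha⟩ : ∃ a, W.a₁ = 2 * a + 1 := ⟨W.a₁ / 2, by omega⟩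
    rw [ha]
    push_cast
    have : (2 : ZMod 2) = 0 := rfl
    rw [this, zero_mul, zero_add]
  have hV : ((W.Δ : ℤ) : ZMod 2) ≠ 0 := by
    intro h1
    apply h
    exact_mod_cast (ZMod.intCast_zmod_eq_zero_iff_dvd W.Δ 2).mp h1
  have h1 := cnt_odd (W.a₂ : ZMod 2) (W.a₃ : ZMod 2) (W.a₄ : ZMod 2) (W.a₆ : ZMod 2) (by
    intro h2
    apply hV
    rw [← h2]
    simp only [WeierstrassCurve.Δ, WeierstrassCurve.b₂, WeierstrassCurve.b₄, WeierstrassCurve.b₆,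
      WeierstrassCurve.b₈]
    push_cast
    rw [ha1])
  rw [ha1]
  rcases h1 with h1 | h1
  · left; rw [h1]; norm_num
  · right; rw [h1]; norm_num

theorem apOfModel_even (h : ¬ (2 : ℤ) ∣ W.Δ) (ha : (2 : ℤ) ∣ W.a₁) :
    ((32 : ℤ) ∣ W.c₄ → W.apOfModel 2 = 0) ∧
    (¬ (32 : ℤ) ∣ W.c₄ → W.apOfModel 2 = 2 ∨ W.apOfModel 2 = -2) := by
  have h3 := odd_a3 h ha
  obtain ⟨a, ha⟩ := ha
  obtain ⟨b, hb⟩ : ∃ b, W.a₃ = 2 * b + 1 := ⟨W.a₃ / 2, by omega⟩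
  have ha1 : (W.a₁ : ZMod 2) = 0 := by
    rw [ha]
    push_cast
    have : (2 : ZMod 2) = 0 := rfl
    rw [this, zero_mul]
  have ha3 : (W.a₃ : ZMod 2) = 1 := by
    rw [hb]
    push_cast
    have : (2 : ZMod 2) = 0 := rfl
    rw [this, zero_mul, zero_add]
  obtain ⟨h4, h5⟩ := cnt_even (W.a₂ : ZMod 2) (W.a₄ : ZMod 2) (W.a₆ : ZMod 2)
  rw [apOfModel_two h, ha1, ha3, c4_of_even ha hb, parity_aux]
  refine ⟨fun h6 => ?_, fun h6 => ?_⟩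
  · rw [h4 h6]; norm_num
  · rcases h5 h6 with h7 | h7
    · left; rw [h7]; norm_num
    · right; rw [h7]; norm_num

/-- **(t1)** -/
theorem three_dvd_apOfModel_two (h : ¬ (2 : ℤ) ∣ W.Δ) :
    (3 : ℤ) ∣ W.apOfModel 2 ↔ (32 : ℤ) ∣ W.c₄ := by
  by_cases ha : (2 : ℤ) ∣ W.a₁
  · obtain ⟨h1, h2⟩ := apOfModel_even h ha
    constructor
    · intro h3
      by_contra h4
      rcases h2 h4 with h5 | h5 <;> rw [h5] at h3 <;> revert h3 <;> decide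
    · intro h3
      rw [h1 h3]
      exact dvd_zero 3
  · constructor
    · intro h3
      exfalso
      rcases apOfModel_odd h ha with h5 | h5 <;> rw [h5] at h3 <;> revert h3 <;> decide
    · intro h3
      exfalso
      exact c4_odd ha ((by norm_num : (2 : ℤ) ∣ 32).trans h3)

/-- **(t2)** -/
theorem apOfModel_two_of_c4 (h : ¬ (2 : ℤ) ∣ W.Δ) (h16 : (16 : ℤ) ∣ W.c₄)
    (h32 : ¬ (32 : ℤ) ∣ W.c₄) : W.apOfModel 2 = 2 ∨ W.apOfModel 2 = -2 := by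
  have ha : (2 : ℤ) ∣ W.a₁ := by
    by_contra ha
    exact c4_odd ha ((by norm_num : (2 : ℤ) ∣ 16).trans h16)
  exact (apOfModel_even h ha).2 h32

end Fermat.Agent.H28N
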