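import Mathlib
import Fermat.Agent.ZF.Match

/-!
# No newform of level prime to a bad odd prime has the residual system of `W`
-/

set_option autoImplicit false
set_option maxSynthPendingDepth 3

namespace Fermat.Agent.H28N

open IsLocalRing
open WeierstrassCurve
open Fermat.Agent.H08 Fermat.Agent.Frob Fermat.Agent.EGal Fermat.Agent.Ell Fermat.Agent.ZF
open Fermat.Agent.Z34 (GDat M2 HH mem_HH gam)
open Fermat.Agent.TC (Pr)
open Fermat.Agent.AL (NF nfSys)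
open Fermat.Agent.H24H (LamA)

/-- a matrix orthogonal to `1, σ, τ, στ` -/
theorem span_zero (C : M2 (ZMod 2)) (h1 : C.trace = 0)
    (h2 : (C * !![1, 1; 0, 1]).trace = 0) (h3 : (C * !![0, 1; 1, 0]).trace = 0)
    (h4 : (C * (!![1, 1; 0, 1] * !![0, 1; 1, 0])).trace = 0) : C = 0 := by
  have key : ∀ a b c d : ZMod 2, (!![a, b; c, d]).trace = 0 →
    (!![a, b; c, d] * !![1, 1; 0, 1]).trace = 0 → (!![a, b; c, d] * !![0, 1; 1, 0]).trace = 0 →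
    (!![a, b; c, d] * (!![1, 1; 0, 1] * !![0, 1; 1, 0])).trace = 0 →
    (a = 0 ∧ b = 0 ∧ c = 0 ∧ d = 0) := by decide
  rw [Matrix.eta_fin_two C] at h1 h2 h3 h4 ⊢
  obtain ⟨e1, e2, e3, e4⟩ := key _ _ _ _ h1 h2 h3 h4
  rw [e1, e2, e3, e4]
  ext i j
  fin_cases i <;> fin_cases j <;> rfl

variable {W : WeierstrassCurve ℤ}

/-- A basis adapted to `W`. -/
theorem exists_std_basis (h : ZCurve W) : ∃ (b : Module.Basis (Fin 2) ℤ_[2] (TT (WQ W) 2))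
    (σ τ : GQ), rho0 b σ = !![1, 1; 0, 1] ∧ rho0 b τ = !![0, 1; 1, 0] := by
  have hΔ := h.neg.ne
  have hell := isElliptic_WQ hΔ
  obtain ⟨l0, hl0, hl4, hlΔ⟩ := h.three
  have hl2 : l0 ≠ 2 := by rintro rfl; omega
  obtain ⟨A, hA⟩ := Fermat.Agent.H05.exists_liesOverPrime Qb hl0
  obtain ⟨b, σ, τ, -, h1, h2⟩ := exists_good_basis hΔ h.irr hl0 hl2 (h.ss l0 hl0)
    (h.odd l0 hl0 hlΔ) hA hell
  exact ⟨b, σ, τ, h1, h2⟩

/-- the system of `W` on Frobenius elements -/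
theorem trace_eq_aW (h : ZCurve W) (b : Module.Basis (Fin 2) ℤ_[2] (TT (WQ W) 2)) {D L : ℕ}
    (hD : D ≠ 0) (hND : NW W ∣ D) (hLD : L ∣ D) {A : ValuationSubring ℂ}
    (hA : (2 : ℂ) ∈ A.nonunits) [CharP (ResidueField A) 2]
    (g : NF D L (LamA A (aW W A D))) : ∃ r : GQ →* M2 (ResidueField A),
      (∀ σ, (r σ).trace = ZMod.castHom (dvd_refl 2) (ResidueField A) (rho0 b σ).trace) ∧
      ∀ q : ℕ, q.Prime → ¬ q ∣ L → q ≠ 2 → ∀ A' : ValuationSubring Qb, A'.LiesOverPrime q →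
        ∀ σ ∈ A'.inertiaSubgroupIn ℚ, r σ = 1 := by
  classical
  have hΔ := h.neg.ne
  have h2D : 2 ∣ D := (two_dvd_NW h).trans hND
  obtain ⟨r, hr1, hr2, hr3, hr4⟩ := exists_resid hD hLD h2D hA _ g
  have hT : ZC.BddQ {q | q ∣ D} := ZC.bddQ_finite
    ((Finset.finite_toSet D.divisors).subset fun q hq =>
      Finset.mem_coe.mpr (Nat.mem_divisors.mpr ⟨hq, hD⟩))
  refine ⟨r, ident r hr1 hr2 (rho0 b) (rho0_open h b) hT ?_, hr4⟩
  intro ℓ hℓ hℓT A' hA' φ hφ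
  have hgood : W.IsGoodPrimeFor ℓ := fun h' =>
    hℓT (((dvd_NW_iff hΔ hℓ).mpr h').trans hND)
  rw [hr3 ⟨ℓ, hℓ, hℓT⟩ A' hA' φ hφ, trace_rho0_frob h b hℓ hgood hA' hφ, aW, map_intCast]

/-- **(G2), odd primes** -/
theorem isEmpty_NF_odd (h : ZCurve W) {D L : ℕ} (hD : D ≠ 0) (hND : NW W ∣ D) (hLD : L ∣ D)
    {A : ValuationSubring ℂ} (hA : (2 : ℂ) ∈ A.nonunits) {q : ℕ} (hq : q.Prime) (hq2 : q ≠ 2)
    (hqΔ : (q : ℤ) ∣ W.Δ) (hqL : ¬ q ∣ L) : IsEmpty (NF D L (LamA A (aW W A D))) := by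
  refine ⟨fun g => ?_⟩
  have hΔ := h.neg.ne
  have hell := isElliptic_WQ hΔ
  have := charP_residue_two hA
  obtain ⟨b, s, t, hs, ht⟩ := exists_std_basis h
  obtain ⟨r, hr1, hr2⟩ := trace_eq_aW h b hD hND hLD hA g
  obtain ⟨A', hA'⟩ := Fermat.Agent.H05.exists_liesOverPrime Qb hq
  obtain ⟨σ, hσ, P, hP, hσP⟩ := exists_inertia_moves hΔ hq (h.odd q hq hqΔ) hA'
  refine rho0_ne_one b hP hσP ?_
  have hrσ := hr2 q hq hqL hq2 A' hA' σ hσ
  have hinj := (ZMod.castHom (dvd_refl 2) (ResidueField A)).injective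
  have key : ∀ x : GQ, ((rho0 b σ - 1) * rho0 b x).trace = 0 := by
    intro x
    rw [sub_mul, one_mul, Matrix.trace_sub, ← map_mul, sub_eq_zero]
    apply hinj
    rw [← hr1, ← hr1, map_mul, hrσ, one_mul]
  rw [← sub_eq_zero]
  refine span_zero _ ?_ ?_ ?_ ?_
  · have := key 1
    rwa [map_one, mul_one] at this
  · rw [← hs]; exact key s
  · rw [← ht]; exact key t
  · rw [← hs, ← ht, ← map_mul]; exact key _

end Fermat.Agent.H28N
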