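import Mathlib
import Fermat.Agent.H28N.NewOdd
import Fermat.Agent.Ell.ZComp
import Fermat.Agent.Ell.Mult

/-!
# Auxiliary primes of PROGRAM Z
-/

set_option autoImplicit false
set_option maxSynthPendingDepth 3

namespace Fermat.Agent.H28N

open IsLocalRing
open WeierstrassCurve
open Fermat.Agent.H08 Fermat.Agent.Frob Fermat.Agent.EGal Fermat.Agent.Ell Fermat.Agent.ZF
open Fermat.Agent.Z34 (GDat M2 HH mem_HH gam)
open Fermat.Agent.TC (Pr)
open scoped Matrix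

variable {W : WeierstrassCurve ℤ}

theorem tr_mul_aux : ∀ a b c d : ZMod 2, (!![a, b; c, d] : M2 (ZMod 2)).det = 1 →
    (!![a, b; c, d] : M2 (ZMod 2)).trace = 1 →
    !![a, b; c, d] * !![a, b; c, d] * !![a, b; c, d] = (1 : M2 (ZMod 2)) ∧
      (!![a, b; c, d] * !![a, b; c, d] : M2 (ZMod 2)).trace = 1 := by decide

/-- powers of an element of order three -/
theorem trace_pow_three {M : M2 (ZMod 2)} (hd : M.det = 1) (ht : M.trace = 1) (m : ℕ) :
    M ^ m = 1 ∨ (M ^ m).trace = 1 := by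
  have h := tr_mul_aux (M 0 0) (M 0 1) (M 1 0) (M 1 1)
  rw [← Matrix.eta_fin_two M] at h
  obtain ⟨h1, h2⟩ := h hd ht
  have h3 : M ^ 3 = 1 := by rw [pow_succ, pow_two, h1]
  have h4 : M ^ m = M ^ (m % 3) := by
    conv_lhs => rw [← Nat.div_add_mod m 3, pow_add, pow_mul, h3, one_pow, one_mul]
  rw [h4]
  have h5 : m % 3 < 3 := Nat.mod_lt _ (by norm_num)
  interval_cases (m % 3)
  · exact Or.inl (pow_zero _)
  · right; rw [pow_one]; exact ht
  · right; rw [pow_two]; exact h2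

theorem trace_basis (hell : (WQ W).IsElliptic)
    (b b' : Module.Basis (Fin 2) ℤ_[2] (TT (WQ W) 2)) (g : GQ) :
    (rho0 b g).trace = (rho0 b' g).trace := by
  rw [rho0_eq_mtx, rho0_eq_mtx, trace_mtx, trace_mtx]

/-- an element with image of order three acting trivially on roots of unity -/
theorem exists_order_three (h : ZCurve W) (b : Module.Basis (Fin 2) ℤ_[2] (TT (WQ W) 2)) :
    ∃ c : GQ, (rho0 b c).trace = 1 ∧ ∀ (D : ℕ), D ≠ 0 → ∀ ζ : Qb, ζ ^ D = 1 → c ζ = ζ := by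
  have hell := isElliptic_WQ h.neg.ne
  obtain ⟨b0, s, t, hs, ht⟩ := exists_std_basis h
  refine ⟨s * t * s⁻¹ * t⁻¹, ?_, ?_⟩
  · rw [trace_basis hell b b0]
    have hs' : rho0 b0 s⁻¹ = !![1, 1; 0, 1] := by
      have h1 : rho0 b0 s⁻¹ * rho0 b0 s = 1 := by rw [← map_mul, inv_mul_cancel, map_one]
      have h2 : rho0 b0 s * rho0 b0 s = 1 := by rw [hs]; decide
      calc rho0 b0 s⁻¹ = rho0 b0 s⁻¹ * (rho0 b0 s * rho0 b0 s) := by rw [h2, mul_one]
        _ = rho0 b0 s := by rw [← mul_assoc, h1, one_mul]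
        _ = _ := hs
    have ht' : rho0 b0 t⁻¹ = !![0, 1; 1, 0] := by
      have h1 : rho0 b0 t⁻¹ * rho0 b0 t = 1 := by rw [← map_mul, inv_mul_cancel, map_one]
      have h2 : rho0 b0 t * rho0 b0 t = 1 := by rw [ht]; decide
      calc rho0 b0 t⁻¹ = rho0 b0 t⁻¹ * (rho0 b0 t * rho0 b0 t) := by rw [h2, mul_one]
        _ = rho0 b0 t := by rw [← mul_assoc, h1, one_mul]
        _ = _ := ht
    rw [map_mul, map_mul, map_mul, hs, ht, hs', ht']
    decide
  · intro D hD ζ hζ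
    obtain ⟨a, ha⟩ := exists_exponent s hD
    obtain ⟨a', ha'⟩ := exists_exponent t hD
    have hst : s (t ζ) = t (s ζ) := by
      rw [ha' ζ hζ, ha ζ hζ, map_pow, map_pow, ha ζ hζ, ha' ζ hζ, ← pow_mul, ← pow_mul, mul_comm]
    have e : ∀ x : Qb, x ^ D = 1 → s (t x) = t (s x) := by
      intro x hx
      rw [ha' x hx, ha x hx, map_pow, map_pow, ha x hx, ha' x hx, ← pow_mul, ← pow_mul, mul_comm]
    have hx : (t⁻¹ ζ) ^ D = 1 := by rw [← map_pow, hζ, map_one]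
    have hy : (s⁻¹ (t⁻¹ ζ)) ^ D = 1 := by rw [← map_pow, hx, map_one]
    change s (t (s⁻¹ (t⁻¹ ζ))) = ζ
    rw [e _ hy]
    have h1 : s (s⁻¹ (t⁻¹ ζ)) = t⁻¹ ζ := s.apply_symm_apply _
    rw [h1]
    exact t.apply_symm_apply _

theorem cong_of_fix {D : ℕ} (hD : D ≠ 0) {ζ : Qb} (hζ : IsPrimitiveRoot ζ D) {ℓ : ℕ}
    (hℓ : ℓ.Prime) (h : ζ = ζ ^ ℓ) : ((ℓ : ℕ) : ZMod D) = 1 := by
  have hℓ1 : ℓ = (ℓ - 1) + 1 := (Nat.succ_pred_eq_of_pos hℓ.pos).symm
  have hζ0 : ζ ≠ 0 := hζ.ne_zero hD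
  have h1 : ζ ^ (ℓ - 1) = 1 := by
    apply mul_right_cancel₀ hζ0
    rw [← pow_succ, ← hℓ1, ← h, one_mul]
  have h2 : D ∣ ℓ - 1 := hζ.dvd_of_pow_eq_one _ h1
  have h3 : ((ℓ - 1 : ℕ) : ZMod D) = 0 := (ZMod.natCast_eq_zero_iff _ _).mpr h2
  rw [hℓ1, Nat.cast_add, h3, Nat.cast_one, zero_add]

theorem pow_fix {c : GQ} {ζ : Qb} (h : c ζ = ζ) (m : ℕ) : (c ^ m) ζ = ζ := by
  induction m with
  | zero => rfl
  | succ m ih => rw [pow_succ, AlgEquiv.mul_apply, h, ih]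

/-- **(G4)** -/
theorem exists_ell_one (h : ZCurve W) (b : Module.Basis (Fin 2) ℤ_[2] (TT (WQ W) 2)) {D : ℕ}
    (hD : D ≠ 0) (hND : NW W ∣ D) {T : Set ℕ} (hT : ZC.BddQ T) :
    ∃ ℓ₁ : Pr D, (ℓ₁ : ℕ) ∉ T ∧ ((ℓ₁ : ℕ) : ZMod D) = 1 ∧
      ∀ A' : ValuationSubring Qb, A'.LiesOverPrime (ℓ₁ : ℕ) → ∀ φ : GQ, A'.IsFrobeniusAt φ ℓ₁ →
        (rho0 b φ).trace = 1 := by
  classical
  have hΔ := h.neg.ne
  have hell := isElliptic_WQ hΔ
  obtain ⟨c, hc1, hc2⟩ := exists_order_three h b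
  have hne0 : NeZero D := ⟨hD⟩
  have hne1 : NeZero (D : Qb) := ⟨Nat.cast_ne_zero.mpr hD⟩
  obtain ⟨ζ, hζ⟩ := HasEnoughRootsOfUnity.exists_primitiveRoot Qb D
  obtain ⟨F0, hF0, hF0r⟩ := rho0_open h b
  let F1 : IntermediateField ℚ Qb := IntermediateField.adjoin ℚ {ζ}
  have hF1 : FiniteDimensional ℚ F1 :=
    IntermediateField.adjoin.finiteDimensional (Algebra.IsIntegral.isIntegral ζ)
  have hF : FiniteDimensional ℚ (F0 ⊔ F1 : IntermediateField ℚ Qb) :=
    IntermediateField.finiteDimensional_sup F0 F1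
  have hT' : ZC.BddQ (T ∪ {q | q ∣ D}) := hT.union (ZC.bddQ_finite
    ((Finset.finite_toSet D.divisors).subset fun q hq =>
      Finset.mem_coe.mpr (Nat.mem_divisors.mpr ⟨hq, hD⟩)))
  obtain ⟨ℓ, hℓ, hℓT, A, hA, φ, hφ, m, n, hm, hn⟩ := ZC.exists_frobenius_bdd (F0 ⊔ F1) hT' c
  rw [Set.mem_union, not_or] at hℓT
  have hζF : ζ ∈ (F0 ⊔ F1 : IntermediateField ℚ Qb) :=
    (le_sup_right (a := F0) (b := F1)) (IntermediateField.subset_adjoin ℚ _ rfl)
  have hcm : (c ^ m) ζ = ζ := pow_fix (hc2 D hD ζ hζ.pow_eq_one) m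
  have hφζ : φ ζ = ζ := by rw [hm ζ hζF, hcm]
  have hφζ' : φ ζ = ζ ^ ℓ :=
    Fermat.Agent.H05.IsFrobeniusAt.apply_rootOfUnity hℓ hA hℓT.2 hφ hζ.pow_eq_one
  have hmod : ((ℓ : ℕ) : ZMod D) = 1 :=
    cong_of_fix hD hζ hℓ (hφζ.symm.trans hφζ')
  have h1 : rho0 b φ = rho0 b c ^ m := by
    rw [← map_pow]
    exact map_eq_of_agree (rho0 b) hF0r fun x hx => hm x ((le_sup_left (a := F0) (b := F1)) hx)
  have h2 : rho0 b c = rho0 b φ ^ n := by
    rw [← map_pow]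
    exact map_eq_of_agree (rho0 b) hF0r fun x hx => hn x ((le_sup_left (a := F0) (b := F1)) hx)
  have htr : (rho0 b φ).trace = 1 := by
    rcases trace_pow_three (det_rho0 (rho0 b) c) hc1 m with h3 | h3
    · exfalso
      rw [← h1] at h3
      rw [h2, h3, one_pow] at hc1
      revert hc1
      decide
    · rw [h1, h3]
  refine ⟨⟨ℓ, hℓ, hℓT.2⟩, hℓT.1, hmod, ?_⟩
  intro A' hA' φ' hφ'
  have hgood : W.IsGoodPrimeFor ℓ := fun h' =>
    hℓT.2 (((dvd_NW_iff hΔ hℓ).mpr h').trans hND)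
  rw [trace_rho0_frob h b hℓ hgood hA' hφ', ← trace_rho0_frob h b hℓ hgood hA hφ, htr]

/-- the determinant of an abstract complex conjugation -/
theorem det_conj (hell : (WQ W).IsElliptic) {c : GQ} (hc : c * c = 1)
    (hmov : ∃ P : Pts (WQ W), 2 • P = 0 ∧ c • P ≠ P) :
    LinearMap.det (rr (WQ W) 2 c) = -1 := by
  obtain ⟨P, hP, hcP⟩ := hmov
  obtain ⟨w, hw⟩ := TateMod.exists_lift (pts_div (WQ W) 2) (n := 1) (x := P)
    (by rw [pow_one]; exact hP)
  set v := rr (WQ W) 2 c w - w with hv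
  have hcc : ∀ x, rr (WQ W) 2 c (rr (WQ W) 2 c x) = x := by
    intro x
    have h1 : rr (WQ W) 2 (c * c) x = x := by rw [hc, map_one]; rfl
    rw [map_mul] at h1
    exact h1
  have hcv : rr (WQ W) 2 c v = -v := by
    rw [hv, _root_.map_sub, hcc]; abel
  have hcw : rr (WQ W) 2 c w = v + w := by rw [hv]; abel
  have hv0 : lev1 (WQ W) 2 v ≠ 0 := by
    intro h
    apply hcP
    have h1 : c • w.1 1 - w.1 1 = 0 := congrArg Subtype.val h
    rw [← hw]
    exact sub_eq_zero.mp h1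
  have hneg : ∀ x : VV (WQ W) 2, -x = x := by
    intro x
    have h2 : (2 : ZMod 2) • x = 0 := by
      have : (2 : ZMod 2) = 0 := rfl
      rw [this, zero_smul]
    rw [two_smul] at h2
    exact (eq_neg_of_add_eq_zero_left h2).symm
  have hli : LinearIndependent (ZMod 2) ![lev1 (WQ W) 2 v, lev1 (WQ W) 2 w] := by
    rw [LinearIndependent.pair_iff]
    intro s t hst
    have h1 := congrArg (rho (WQ W) 2 c) hst
    rw [map_add, map_smul, map_smul, ← lev1_rr, ← lev1_rr, hcv, hcw, map_add, smul_add,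
      _root_.map_zero, _root_.map_neg, hneg] at h1
    have h2 : t • lev1 (WQ W) 2 v = 0 := by
      have : s • lev1 (WQ W) 2 v + (t • lev1 (WQ W) 2 v + t • lev1 (WQ W) 2 w) -
        (s • lev1 (WQ W) 2 v + t • lev1 (WQ W) 2 w) = 0 := by rw [h1, hst, sub_self]
      rw [← this]; abel
    have ht : t = 0 := (smul_eq_zero.mp h2).resolve_right hv0
    rw [ht, zero_smul, add_zero] at hst
    exact ⟨(smul_eq_zero.mp hst).resolve_right hv0, ht⟩
  obtain ⟨b, hb0, hb1⟩ := exists_basis_of_lev1 hli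
  obtain ⟨hdet, -⟩ := det_of_triangular b (f := rr (WQ W) 2 c) (x := -1) (z := 1)
    (by rw [hb0, hcv, neg_smul, one_smul])
    (by
      rw [hb0, hb1, hcw, one_smul, add_sub_cancel_right]
      exact Submodule.mem_span_singleton_self v)
  rw [hdet, mul_one]

/-- **(G3)**, first part -/
theorem two_pow_dvd_of_CTy (h : ZCurve W) {m q : ℕ} (hq : q.Prime) (hc : CTy W m q) :
    2 ^ m ∣ q + 1 := by
  have hΔ := h.neg.ne
  have hell := isElliptic_WQ hΔ
  obtain ⟨hgood, A, hA, φ, hφ, c, hcc, hmov, hφc⟩ := hc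
  have hq2 : q ≠ 2 := by rintro rfl; exact hgood h.two
  obtain ⟨b, -⟩ := exists_std_basis h
  have hns := exists_nonscalar_of_irr (p := 2) hΔ h.irr
  have h1 := det_frob (isModel_WQ W) hns hq hq2 hA hφ
  have h2 := det_conj hell hcc hmov
  have hf : PadicInt.toZModPow (p := 2) m ((2 : ℤ_[2]) ^ m) = 0 := by
    rw [← RingHom.mem_ker, PadicInt.ker_toZModPow]
    exact Ideal.mem_span_singleton_self _
  have h3 : rhoP (PadicInt.toZModPow (p := 2) m) b φ =
      rhoP (PadicInt.toZModPow (p := 2) m) b c := rhoP_congr hf hφc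
  have h4 := congrArg Matrix.det h3
  rw [det_rhoP, det_rhoP, h1, h2, map_natCast, _root_.map_neg, map_one] at h4
  have h5 : ((q + 1 : ℕ) : ZMod (2 ^ m)) = 0 := by
    rw [Nat.cast_add, h4, Nat.cast_one, neg_add_cancel]
  exact (ZMod.natCast_eq_zero_iff _ _).mp h5

theorem trace_aux : ∀ a b c d : ZMod 2,
    !![a, b; c, d] * !![a, b; c, d] = (1 : M2 (ZMod 2)) → (!![a, b; c, d] : M2 (ZMod 2)) ≠ 1 →
      ¬ (!![a, b; c, d] : M2 (ZMod 2)).trace = 1 := by decide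

/-- **(G3)**, second part -/
theorem inert_of_CTy (h : ZCurve W) {m q : ℕ} (hm : m ≠ 0) (hq : q.Prime) (hc : CTy W m q)
    (r : ZMod q) : r ^ 2 ≠ ((-2 * (MW W : ℤ) : ℤ) : ZMod q) := by
  intro hr
  have hΔ := h.neg.ne
  have hell := isElliptic_WQ hΔ
  obtain ⟨hgood, A, hA, φ, hφ, c, hcc, ⟨P, hP, hcP⟩, hφc⟩ := hc
  have hq2 : q ≠ 2 := by rintro rfl; exact hgood h.two
  obtain ⟨b, -⟩ := exists_std_basis h
  -- the Frobenius element moves `δ`
  have hcc' : rho0 b c * rho0 b c = 1 := by rw [← map_mul, hcc, map_one]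
  have hc1 : rho0 b c ≠ 1 := rho0_ne_one b hP hcP
  have hφc1 : rho0 b φ = rho0 b c := by
    have h1 : rho0 b (c⁻¹ * φ) = 1 := by
      rw [rho0_eq_one_iff]
      intro P hP
      have hP2 : 2 ^ m • P = 0 := by
        obtain ⟨k, rfl⟩ := Nat.exists_eq_succ_of_ne_zero hm
        rw [pow_succ, mul_smul, hP, nsmul_zero]
      rw [mul_smul, hφc P hP2, inv_smul_smul]
    have h2 : φ = c * (c⁻¹ * φ) := by group
    rw [h2, map_mul, h1, mul_one]
  have htr := trace_aux (rho0 b c 0 0) (rho0 b c 0 1) (rho0 b c 1 0) (rho0 b c 1 1)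
  rw [← Matrix.eta_fin_two (rho0 b c)] at htr
  have hφδ : φ (delta h) = - delta h := by
    refine (delta_pm h φ).resolve_left fun h1 => ?_
    rw [delta_iff h b, hφc1] at h1
    rcases h1 with h1 | h1
    · exact hc1 h1
    · exact htr hcc' hc1 h1
  -- valuations
  have : NeZero q := ⟨hq.ne_zero⟩
  set k : ℤ := (r.val : ℤ) with hk
  have hkr : ((k : ℤ) : ZMod q) = r := by rw [hk]; simp
  have hdvd : (q : ℤ) ∣ k ^ 2 - (-2 * (MW W : ℤ)) := by
    rw [← ZMod.intCast_zmod_eq_zero_iff_dvd, Int.cast_sub, Int.cast_pow, hkr, hr, sub_self]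
  have hprod : A.valuation (((k : Qb) - delta h) * ((k : Qb) + delta h)) < 1 := by
    have e : ((k : Qb) - delta h) * ((k : Qb) + delta h) =
        (((k ^ 2 - (-2 * (MW W : ℤ)) : ℤ)) : Qb) := by
      have := delta_sq h
      push_cast at this ⊢
      linear_combination -this
    rw [e]
    exact H09.val_intCast_lt_one hA hdvd
  have hval := H09.val_apply_eq (H09.frob_smul_eq hφ)
  have e1 : φ ((k : Qb) - delta h) = (k : Qb) + delta h := by
    rw [_root_.map_sub, map_intCast, hφδ, sub_neg_eq_add]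
  have e2 := hval ((k : Qb) - delta h)
  rw [e1] at e2
  rw [map_mul, e2] at hprod
  have hlt : A.valuation ((k : Qb) - delta h) < 1 := by
    by_contra hcon
    rw [not_lt] at hcon
    exact absurd hprod (not_lt.mpr (one_le_mul_of_one_le_of_one_le hcon hcon))
  have hlt' : A.valuation ((k : Qb) + delta h) < 1 := by rw [e2]; exact hlt
  have h2δ : A.valuation (2 * delta h) < 1 := by
    have e : 2 * delta h = ((k : Qb) + delta h) - ((k : Qb) - delta h) := by ring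
    rw [e]
    exact lt_of_le_of_lt (Valuation.map_sub _ _ _) (max_lt hlt' hlt)
  have h4 : A.valuation (((4 * (-2 * (MW W : ℤ)) : ℤ)) : Qb) < 1 := by
    have e : (((4 * (-2 * (MW W : ℤ)) : ℤ)) : Qb) = (2 * delta h) * (2 * delta h) := by
      have := delta_sq h
      push_cast at this ⊢
      linear_combination (-4) * this
    rw [e, map_mul]
    exact mul_lt_one_of_lt_of_le h2δ h2δ.le
  have hnd : ¬ (q : ℤ) ∣ 4 * (-2 * (MW W : ℤ)) := by
    intro h5
    have h6 : (4 * (-2 * (MW W : ℤ)) : ℤ) = -((4 * NW W : ℕ) : ℤ) := by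
      rw [← two_mul_MW h]; push_cast; ring
    rw [h6, dvd_neg, Int.natCast_dvd_natCast, hq.dvd_mul] at h5
    rcases h5 with h5 | h5
    · apply hq2
      have : q ∣ 2 ^ 2 := by norm_num; exact h5
      exact (Nat.prime_dvd_prime_iff_eq hq Nat.prime_two).mp (hq.dvd_of_dvd_pow this)
    · exact hgood ((dvd_NW_iff hΔ hq).mp h5)
  rw [H09.val_intCast_eq_one hq hA hnd] at h4
  exact lt_irrefl _ h4

/-- **(G3)**, third part -/
theorem coprime_of_CTy (h : ZCurve W) {m q : ℕ} (hq : q.Prime) (hc : CTy W m q) :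
    q.Coprime (8 * MW W) := by
  have hΔ := h.neg.ne
  have hgood := hc.1
  have hq2 : q ≠ 2 := by rintro rfl; exact hgood h.two
  rw [Nat.Prime.coprime_iff_not_dvd hq, hq.dvd_mul]
  rintro (h1 | h1)
  · apply hq2
    have : q ∣ 2 ^ 3 := by norm_num; exact h1
    exact (Nat.prime_dvd_prime_iff_eq hq Nat.prime_two).mp (hq.dvd_of_dvd_pow this)
  · apply hgood
    rw [← dvd_NW_iff hΔ hq, ← two_mul_MW h]
    exact h1.mul_left 2

end Fermat.Agent.H28N
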