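import Mathlib
import Fermat.Agent.H28N.NewOdd
import Fermat.Agent.H19.OT2C
import Fermat.Agent.H09.OT2Curve

/-!
# No newform of odd level has the residual system of `W`
-/

set_option autoImplicit false
set_option maxSynthPendingDepth 3

namespace Fermat.Agent.H28N

open IsLocalRing
open WeierstrassCurve
open Fermat.Agent.H08 Fermat.Agent.Frob Fermat.Agent.EGal Fermat.Agent.Ell Fermat.Agent.ZF
open Fermat.Agent.Z34 (GDat M2 HH mem_HH gam)
open Fermat.Agent.TC (Pr)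
open Fermat.Agent.AL (NF nfSys)
open Fermat.Agent.H24H (LamA)
open scoped Matrix

variable {W : WeierstrassCurve ℤ}

section iota

variable {E : WeierstrassCurve ℚ} [E.IsElliptic]

/-- the two-torsion as `𝔽₂²` -/
noncomputable def iotaTors (b : Module.Basis (Fin 2) ℤ_[2] (TT E 2)) :
    (Fin 2 → ZMod 2) →+ Pts E where
  toFun m := (((redBasis b).equivFun.symm m : VV E 2) : Pts E)
  map_zero' := by rw [_root_.map_zero]; rfl
  map_add' m m' := by rw [map_add]; rfl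

theorem iotaTors_apply (b : Module.Basis (Fin 2) ℤ_[2] (TT E 2)) (m : Fin 2 → ZMod 2) :
    iotaTors b m = (((redBasis b).equivFun.symm m : VV E 2) : Pts E) := rfl

theorem iotaTors_injective (b : Module.Basis (Fin 2) ℤ_[2] (TT E 2)) :
    Function.Injective (iotaTors b) := fun _ _ h =>
  (redBasis b).equivFun.symm.injective (Subtype.ext h)

theorem equivFun_rho (b : Module.Basis (Fin 2) ℤ_[2] (TT E 2)) (σ : GQ) (x : VV E 2) :
    (redBasis b).equivFun (rho E 2 σ x) = rho0 b σ *ᵥ (redBasis b).equivFun x := by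
  rw [rho0_eq_mtx]
  exact (LinearMap.toMatrix_mulVec_repr (redBasis b) (redBasis b) (rho E 2 σ) x).symm

theorem iotaTors_act (b : Module.Basis (Fin 2) ℤ_[2] (TT E 2)) (σ : GQ) (m : Fin 2 → ZMod 2) :
    iotaTors b (rho0 b σ *ᵥ m) = σ • iotaTors b m := by
  rw [iotaTors_apply, iotaTors_apply]
  obtain ⟨x, rfl⟩ := (redBasis b).equivFun.surjective m
  rw [← equivFun_rho, LinearEquiv.symm_apply_apply, LinearEquiv.symm_apply_apply]
  rfl

theorem iotaTors_range (b : Module.Basis (Fin 2) ℤ_[2] (TT E 2)) (P : Pts E) :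
    P + P = 0 ↔ ∃ m, iotaTors b m = P := by
  constructor
  · intro h
    have hP : P ∈ Submodule.torsionBy ℤ (Pts E) 2 := by
      rw [Submodule.mem_torsionBy_iff, ofNat_zsmul, two_nsmul]; exact h
    refine ⟨(redBasis b).equivFun ⟨P, hP⟩, ?_⟩
    rw [iotaTors_apply, LinearEquiv.symm_apply_apply]
  · rintro ⟨m, rfl⟩
    rw [← map_add]
    have : m + m = 0 := by
      funext i
      exact CharTwo.add_self_eq_zero (m i)
    rw [this, _root_.map_zero]

end iota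

/-- the residual character of the Hecke algebra -/
noncomputable def chiG {D L : ℕ} [NeZero L] (A : ValuationSubring ℂ)
    {g : CuspForm (CongruenceSubgroup.Gamma0 L) 2} (hg : g.IsNormalizedEigenform) :
    CuspForm.heckeAlgebra L 2 (↑D.primeFactors : Set ℕ) →+* ResidueField A :=
  ((residue A).comp (toA A)).comp (H23.eigenChar hg (↑D.primeFactors : Set ℕ))

theorem chiG_T {D L : ℕ} [NeZero L] {A : ValuationSubring ℂ}
    {g : CuspForm (CongruenceSubgroup.Gamma0 L) 2} (hg : g.IsNormalizedEigenform)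
    {a : Pr D → ResidueField A} (hsys : nfSys D g ∈ LamA A a) {ℓ : ℕ} (hℓ : ℓ.Prime)
    (hℓD : ¬ ℓ ∣ D) (hℓN : ¬ ℓ ∣ L) (hℓS : ℓ ∉ (↑D.primeFactors : Set ℕ)) :
    chiG (D := D) A hg (CuspForm.heckeAlgebra.T hℓ hℓN hℓS) = a ⟨ℓ, hℓ, hℓD⟩ := by
  obtain ⟨h3, h4⟩ := hsys ⟨ℓ, hℓ, hℓD⟩
  refine Eq.trans ?_ h4
  change residue A (toA A (H23.eigenChar hg _ _)) = _
  congr 1
  apply Subtype.ext
  rw [coe_toA, H23.coe_eigenChar_T]
  rfl

/-- a newform of odd level with the system of `W` gives a Hopf order -/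
theorem hasHopf_of_NF (h : ZCurve W) {D L : ℕ} (hD : D ≠ 0) (hND : NW W ∣ D) (hLD : L ∣ D)
    {A : ValuationSubring ℂ} (hA : (2 : ℂ) ∈ A.nonunits) (h2L : ¬ 2 ∣ L)
    (g : NF D L (LamA A (aW W A D))) (b : Module.Basis (Fin 2) ℤ_[2] (TT (WQ W) 2))
    (hb : ∃ σ τ : GQ, rho0 b σ = !![1, 1; 0, 1] ∧ rho0 b τ = !![0, 1; 1, 0]) :
    Fermat.Agent.H19.HasHopf 2 (Fermat.Agent.H19.matAct (rho0 b)) := by
  have hΔ := h.neg.ne
  have hell := isElliptic_WQ hΔ
  have : NeZero L := ⟨fun h => hD (by rw [h] at hLD; exact Nat.eq_zero_of_zero_dvd hLD)⟩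
  have := charP_residue_two hA
  obtain ⟨g, hg, hsys⟩ := g
  have h2D : 2 ∣ D := (two_dvd_NW h).trans hND
  refine Fermat.Agent.H19.hasHopf_of_system_odd (N := L) h2L (S := D.primeFactors)
    (Nat.mem_primeFactors.mpr ⟨Nat.prime_two, h2D, hD⟩)
    (fun q hq hqL => Nat.mem_primeFactors.mpr ⟨hq, hqL.trans hLD, hD⟩) (chiG (D := D) A hg.1)
    (rho0 b) ?_ hb ?_
  · obtain ⟨F, hF, h1⟩ := rho0_open h b
    refine ⟨F, hF, fun σ hσ => h1 σ ?_⟩
    rw [IntermediateField.mem_fixingSubgroup_iff]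
    exact hσ
  · intro ℓ hℓ hℓN hℓS A' hA' φ hφ
    have hℓD : ¬ ℓ ∣ D := fun h' => hℓS (Nat.mem_primeFactors.mpr ⟨hℓ, h', hD⟩)
    have hgood : W.IsGoodPrimeFor ℓ := fun h' =>
      hℓD (((dvd_NW_iff hΔ hℓ).mpr h').trans hND)
    rw [trace_rho0_frob h b hℓ hgood hA' hφ, map_intCast, chiG_T hg.1 hsys hℓ hℓD hℓN hℓS]
    rfl

/-- the two-torsion has no Hopf order at `2` -/
theorem not_hasHopf (h : ZCurve W) (hell : (WQ W).IsElliptic)
    (b : Module.Basis (Fin 2) ℤ_[2] (TT (WQ W) 2)) :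
    ¬ Fermat.Agent.H19.HasHopf 2 (Fermat.Agent.H19.matAct (rho0 b)) := by
  rintro ⟨H, hH⟩
  have h1 : ¬ (2 : ℤ) ∣ W.c₄ := h.ss 2 Nat.prime_two h.two
  have h2 : Odd (padicValInt 2 W.Δ) := h.odd 2 Nat.prime_two h.two
  have h3 : ∀ (σ : GQ) (m : Fin 2 → ZMod 2),
      iotaTors b (Fermat.Agent.H19.matAct (rho0 b) σ m) = σ • iotaTors b m :=
    fun σ m => iotaTors_act b σ m
  exact Fermat.Agent.H09.no_hopfOrder_twoTorsion h.neg.ne h.two h1 h2 (iotaTors_injective b)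
    h3 (iotaTors_range b) hH

/-- **(G2), the prime `2`** -/
theorem isEmpty_NF_two (h : ZCurve W) {D L : ℕ} (hD : D ≠ 0) (hND : NW W ∣ D) (hLD : L ∣ D)
    {A : ValuationSubring ℂ} (hA : (2 : ℂ) ∈ A.nonunits) (h2L : ¬ 2 ∣ L) :
    IsEmpty (NF D L (LamA A (aW W A D))) := by
  refine ⟨fun g => ?_⟩
  obtain ⟨b, s, t, hs, ht⟩ := exists_std_basis h
  exact not_hasHopf h (isElliptic_WQ h.neg.ne) b
    (hasHopf_of_NF h hD hND hLD hA h2L g b ⟨s, t, hs, ht⟩)

/-- **(G2)** -/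
theorem isEmpty_NF (h : ZCurve W) {D L : ℕ} (hD : D ≠ 0) (hND : NW W ∣ D) (hLD : L ∣ D)
    {A : ValuationSubring ℂ} (hA : (2 : ℂ) ∈ A.nonunits) (hL : ¬ NW W ∣ L) :
    IsEmpty (NF D L (LamA A (aW W A D))) := by
  by_contra hcon
  have h2L : 2 ∣ L := by
    by_contra h2
    exact hcon (isEmpty_NF_two h hD hND hLD hA h2)
  have hΔ := h.neg.ne
  apply hL
  rw [NW]
  refine Finset.prod_primes_dvd L (fun q hq => (Nat.prime_of_mem_primeFactors hq).prime) ?_
  intro q hq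
  have hqp := Nat.prime_of_mem_primeFactors hq
  by_contra hqL
  refine hcon (isEmpty_NF_odd h hD hND hLD hA hqp ?_ ?_ hqL)
  · rintro rfl
    exact hqL h2L
  · exact Int.natCast_dvd.mpr (Nat.dvd_of_mem_primeFactors hq)

/-- **(G2)** in the form needed by the counting theorem -/
theorem card_NF_eq_zero (h : ZCurve W) {D L : ℕ} (hD : D ≠ 0) (hND : NW W ∣ D) (hLD : L ∣ D)
    {A : ValuationSubring ℂ} (hA : (2 : ℂ) ∈ A.nonunits) (hL : ¬ NW W ∣ L) :
    Nat.card (NF D L (LamA A (aW W A D))) = 0 := by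
  have := isEmpty_NF h hD hND hLD hA hL
  exact Nat.card_of_isEmpty

end Fermat.Agent.H28N
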