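import Mathlib
import Fermat.Agent.H01.P2.Props
import Fermat.Agent.H07.P2.Zero
import Fermat.Agent.H28N.TraceTwo

/-!
# Selection at `3` for curves with `a_2 = 0`
-/

set_option autoImplicit false

namespace Fermat.Agent.H28N

/-- **`Sel3Mult`** -/
theorem sel3Mult : Fermat.Agent.P2.Sel3Mult := by
  intro W hΔ hss h2 h3 _
  obtain ⟨W', h4, h5, h6, h7, h8, h9, h10⟩ := Fermat.Agent.H07.P2.selection_zero W hΔ hss h2
    ((three_dvd_apOfModel_two h2).mp h3)
  exact ⟨W', h4, h5, h6, h7, h8, h9, fun ℓ hℓ _ hℓ3 hg hg' => h10 ℓ hℓ hg hg' hℓ3⟩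

end Fermat.Agent.H28N
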